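/-
S56 / [CHEB] (helper24, prefix `s56c_`): Frobenius elements of `Q̄ / ℚ` in elementary terms.

* `s56c_isFrob_iff`   : `A.IsFrobeniusAt φ q ↔ φ • A = A ∧ ∀ a ∈ A, φ a - a ^ q ∈ A.nonunits`;
* `s56c_isFrob_conj`  : conjugating a Frobenius element: `(g • A).IsFrobeniusAt (g * φ * g⁻¹) q`;
* `s56c_liesOver_conj`: `(g • A).LiesOverPrime q`.
-/
import Mathlib
import Fermat.Prelude.Def_EllipticCurve_FrobeniusTrace
import Fermat.Prelude.Def_FLTPrelim_Ramification

set_option autoImplicit false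

namespace Fermat.Agent.S56

open scoped Pointwise

local notation "Qbar" => AlgebraicClosure ℚ
local notation "GQ" => (AlgebraicClosure ℚ ≃ₐ[ℚ] AlgebraicClosure ℚ)

/-- the Prelude's Frobenius predicate in elementary terms. -/
theorem s56c_isFrob_iff (A : ValuationSubring Qbar) {φ : GQ} {q : ℕ} :
    A.IsFrobeniusAt φ q ↔ φ • A = A ∧ ∀ a ∈ A, φ a - a ^ q ∈ A.nonunits := by
  constructor
  · rintro ⟨hφ, hres⟩
    refine ⟨hφ, fun a ha => ?_⟩
    have h1 := hres (IsLocalRing.residue A ⟨a, ha⟩)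
    rw [← IsLocalRing.ResidueField.residue_smul, ← map_pow] at h1
    have h2 : (⟨φ, hφ⟩ : A.decompositionSubgroup ℚ) • (⟨a, ha⟩ : A) - (⟨a, ha⟩ : A) ^ q ∈
        IsLocalRing.maximalIdeal A := by
      rw [← Ideal.Quotient.eq]; exact h1
    exact ValuationSubring.coe_mem_nonunits_iff.2 h2
  · rintro ⟨hφ, h2⟩
    refine ⟨hφ, fun x => ?_⟩
    obtain ⟨⟨a, ha⟩, rfl⟩ := IsLocalRing.residue_surjective x
    rw [← IsLocalRing.ResidueField.residue_smul, ← map_pow]
    refine Ideal.Quotient.eq.2 ?_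
    have h3 : (⟨φ, hφ⟩ : A.decompositionSubgroup ℚ) • (⟨a, ha⟩ : A) - (⟨a, ha⟩ : A) ^ q ∈
        IsLocalRing.maximalIdeal A := ValuationSubring.coe_mem_nonunits_iff.1 (h2 a ha)
    exact h3

/-- membership in a conjugate valuation subring. -/
lemma s56c_mem_smul (A : ValuationSubring Qbar) (g : GQ) {x : Qbar} :
    x ∈ g • A ↔ g⁻¹ x ∈ A := by
  constructor
  · intro hx
    obtain ⟨a, ha, rfl⟩ := (ValuationSubring.mem_smul_pointwise_iff_exists g x A).1 hx
    have : g⁻¹ (g • a) = a := g.symm_apply_apply a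
    rw [this]; exact ha
  · intro hx
    refine (ValuationSubring.mem_smul_pointwise_iff_exists g x A).2 ⟨g⁻¹ x, hx, ?_⟩
    exact g.apply_symm_apply x

/-- the non-units of a conjugate valuation subring. -/
lemma s56c_nonunits_smul (A : ValuationSubring Qbar) (g : GQ) {x : Qbar} (hx : x ∈ A.nonunits) :
    g x ∈ (g • A).nonunits := by
  obtain ⟨hxA, hmax⟩ := ValuationSubring.mem_nonunits_iff_exists_mem_maximalIdeal.1 hx
  have hgx : g x ∈ g • A := by
    rw [s56c_mem_smul]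
    have : g⁻¹ (g x) = x := g.symm_apply_apply x
    rw [this]; exact hxA
  refine ValuationSubring.mem_nonunits_iff_exists_mem_maximalIdeal.2 ⟨hgx, ?_⟩
  rw [IsLocalRing.mem_maximalIdeal, mem_nonunits_iff] at hmax ⊢
  intro hu
  apply hmax
  obtain ⟨⟨y, hy⟩, hxy⟩ := isUnit_iff_exists_inv.1 hu
  rw [s56c_mem_smul] at hy
  refine isUnit_iff_exists_inv.2 ⟨⟨g⁻¹ y, hy⟩, ?_⟩
  have h1 : g x * y = 1 := congrArg Subtype.val hxy
  apply Subtype.ext
  show x * g⁻¹ y = 1
  have h2 := congrArg (fun z => g⁻¹ z) h1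
  simp only [map_mul, map_one] at h2
  have : g⁻¹ (g x) = x := g.symm_apply_apply x
  rw [this] at h2
  exact h2

/-- conjugate places lie over the same prime. -/
theorem s56c_liesOver_conj (A : ValuationSubring Qbar) {q : ℕ} (h : A.LiesOverPrime q) (g : GQ) :
    (g • A).LiesOverPrime q := by
  have := s56c_nonunits_smul A g h
  rwa [map_natCast] at this

/-- conjugating a Frobenius element. -/
theorem s56c_isFrob_conj (A : ValuationSubring Qbar) {φ : GQ} {q : ℕ}
    (h : A.IsFrobeniusAt φ q) (g : GQ) : (g • A).IsFrobeniusAt (g * φ * g⁻¹) q := by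
  rw [s56c_isFrob_iff] at h ⊢
  obtain ⟨h1, h2⟩ := h
  refine ⟨?_, fun a ha => ?_⟩
  · rw [mul_smul, mul_smul, inv_smul_smul, h1]
  · rw [s56c_mem_smul] at ha
    have h3 := s56c_nonunits_smul A g (h2 _ ha)
    have e : g (φ (g⁻¹ a) - (g⁻¹ a) ^ q) = (g * φ * g⁻¹) a - a ^ q := by
      rw [map_sub, map_pow]
      have : g (g⁻¹ a) = a := g.apply_symm_apply a
      rw [this]
      rfl
    rwa [e] at h3

end Fermat.Agent.S56
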