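/-
S56 / [CHEB] (helper24, prefix `s56c_`): the EXISTENCE form of Chebotarev's theorem over `ℚ` in the
language of the prelude, from the density theorem `dsC_chebotarev` (project DS):

`s56c_exists` : for every finite `L ⊆ Q̄`, every finite set `S` of primes and every `σ ∈ G_ℚ` there
are a prime `ℓ ∉ S`, a place `A` of `Q̄` over `ℓ` and a Frobenius element `τ` at `A` with `τ = σ` on
`L`.  (This is the shape of `s58_ChebSeam`; unlike `wc_main` the Frobenius element ITSELF, not a
power of it, agrees with `σ`.)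
-/
import Fermat.Agent.DS.Cheb.Main
import Fermat.Agent.JT3.ES.FrobExists
import Fermat.Agent.S35.SMO.StrongLin
import Fermat.Agent.S56.Cheb.Frob

set_option autoImplicit false

namespace Fermat.Agent.S56

open Fermat.Agent.DS
open scoped Pointwise

local notation "Qbar" => AlgebraicClosure ℚ
local notation "GQ" => (AlgebraicClosure ℚ ≃ₐ[ℚ] AlgebraicClosure ℚ)

/-- Instance-path repair: the default `Algebra ℚ (AlgebraicClosure ℚ)` is the division-ring one. -/
local instance s56c_qbarIsAlgebraic : Algebra.IsAlgebraic ℚ (AlgebraicClosure ℚ) :=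
  AlgebraicClosure.isAlgebraic ℚ

local instance s56c_qbarIsAlgClosure : IsAlgClosure ℚ (AlgebraicClosure ℚ) :=
  ⟨inferInstance, inferInstance⟩

/-- a set of primes of positive Dirichlet density is not contained in a finite set. -/
theorem s56c_exists_of_density {X : Set ℕ} {c : ℝ} (hc : 0 < c)
    (h : ∀ δ : ℝ, 0 < δ → ∃ s₀ : ℝ, 1 < s₀ ∧ ∀ s : ℝ, 1 < s → s < s₀ →
      |ds_primeSum X (fun _ => 1) s - c * Real.log (1 / (s - 1))| ≤
        δ * Real.log (1 / (s - 1))) (S : Finset ℕ) :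
    ∃ p : ℕ, p.Prime ∧ p ∈ X ∧ p ∉ S := by
  classical
  by_contra hno
  push Not at hno
  -- the prime sum is bounded by `#S`
  have hbound : ∀ s : ℝ, 0 < s → ds_primeSum X (fun _ => 1) s ≤ (S.card : ℝ) := by
    intro s hs
    unfold ds_primeSum
    set T : Finset Nat.Primes := (S.subtype Nat.Prime : Finset {p : ℕ // p.Prime}) with hT
    have hmemT : ∀ b : Nat.Primes, b ∈ T ↔ (b : ℕ) ∈ S := fun b => Finset.mem_subtype
    have hzero : ∀ b : Nat.Primes, b ∉ T →
        X.indicator (fun n : ℕ => (fun _ => (1 : ℝ)) n * (n : ℝ) ^ (-s)) (b : ℕ) = 0 := by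
      intro b hb
      rw [hmemT] at hb
      apply Set.indicator_of_notMem
      intro hX
      exact hb (hno b b.2 hX)
    rw [tsum_eq_sum hzero]
    calc ∑ b ∈ T,
          X.indicator (fun n : ℕ => (fun _ => (1 : ℝ)) n * (n : ℝ) ^ (-s)) ((b : Nat.Primes) : ℕ)
        ≤ ∑ _b ∈ T, (1 : ℝ) := by
          refine Finset.sum_le_sum (fun b _ => ?_)
          rw [Set.indicator_apply]
          split_ifs
          · rw [one_mul]
            refine Real.rpow_le_one_of_one_le_of_nonpos ?_ (by linarith)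
            exact_mod_cast b.2.one_lt.le
          · exact zero_le_one
      _ = (T.card : ℝ) := by simp
      _ ≤ (S.card : ℝ) := by
          have : T.card = (S.filter Nat.Prime).card := Finset.card_subtype _ _
          rw [this]
          exact_mod_cast Finset.card_filter_le _ _
  obtain ⟨s₀, hs₀, hs⟩ := h (c / 2) (by positivity)
  set B : ℝ := (S.card : ℝ) with hB
  set K : ℝ := 2 * B / c + 1 with hK
  set t : ℝ := min ((s₀ - 1) / 2) (Real.exp (-K)) with ht
  have ht0 : 0 < t := lt_min (by linarith) (Real.exp_pos _)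
  have ht1 : t ≤ (s₀ - 1) / 2 := min_le_left _ _
  have ht2 : t ≤ Real.exp (-K) := min_le_right _ _
  have hlog : K ≤ Real.log (1 / t) := by
    rw [one_div, Real.log_inv]
    have := Real.log_le_log ht0 ht2
    rw [Real.log_exp] at this
    linarith
  have h1 := hs (1 + t) (by linarith) (by linarith)
  rw [add_sub_cancel_left] at h1
  have h2 := (abs_le.1 h1).1
  have h3 := hbound (1 + t) (by linarith)
  have hcK : c / 2 * K = B + c / 2 := by
    rw [hK]; field_simp
  have h4 : c / 2 * K ≤ c / 2 * Real.log (1 / t) :=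
    mul_le_mul_of_nonneg_left hlog (by positivity)
  nlinarith

/-- **Chebotarev, existence form**: every element of `G_ℚ` agrees on any given finite extension with
a Frobenius element at a prime outside any given finite set. -/
theorem s56c_exists (L : IntermediateField ℚ Qbar) (hL : FiniteDimensional ℚ L) (S : Finset ℕ)
    (σ : GQ) :
    ∃ (ℓ : ℕ) (A : ValuationSubring Qbar) (τ : GQ), ℓ.Prime ∧ ℓ ∉ S ∧ A.LiesOverPrime ℓ ∧
      A.IsFrobeniusAt τ ℓ ∧ ∀ x ∈ L, τ x = σ x := by
  classical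
  have := hL
  set L' : IntermediateField ℚ Qbar := IntermediateField.normalClosure ℚ L Qbar with hL'
  have hnorm : Normal ℚ L' := normalClosure.normal ℚ L Qbar
  have hfd : FiniteDimensional ℚ L' := normalClosure.is_finiteDimensional ℚ L Qbar
  have hLL' : L ≤ L' := IntermediateField.le_normalClosure L
  set φ : GQ →* (L' ≃ₐ[ℚ] L') := AlgEquiv.restrictNormalHom L' with hφ
  have hφx : ∀ (τ : GQ) (x : L'), ((φ τ x : L') : Qbar) = τ (x : Qbar) := fun τ x =>
    AlgEquiv.restrictNormal_commutes τ L' x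
  have hfin : GaloisFactorsThroughFiniteLevel φ := by
    refine ⟨L', hfd, fun τ hτ => ?_⟩
    apply AlgEquiv.ext
    intro x
    apply Subtype.ext
    rw [hφx]
    exact hτ x x.2
  have hsurj : Function.Surjective φ := AlgEquiv.restrictNormalHom_surjective Qbar
  set C : Set (L' ≃ₐ[ℚ] L') := {c | ∃ h, c = h * φ σ * h⁻¹} with hC
  have hconj : ∀ g h : L' ≃ₐ[ℚ] L', g ∈ C → h * g * h⁻¹ ∈ C := by
    rintro g h ⟨k, rfl⟩
    exact ⟨h * k, by group⟩
  obtain ⟨S₀, hS₀⟩ := dsC_chebotarev (L' ≃ₐ[ℚ] L') φ hfin hsurj C hconj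
  have hCne : Nonempty C := ⟨⟨φ σ, 1, by group⟩⟩
  have hc : (0 : ℝ) < (Nat.card C : ℝ) / (Nat.card (L' ≃ₐ[ℚ] L') : ℝ) := by
    have h1 : 0 < Nat.card C := Nat.card_pos
    have h2 : 0 < Nat.card (L' ≃ₐ[ℚ] L') := Nat.card_pos
    positivity
  obtain ⟨p, hp, hpX, hpS⟩ := s56c_exists_of_density hc hS₀ S
  obtain ⟨A, hA⟩ := Fermat.Agent.S35.smos_exists_place p hp
  obtain ⟨τ₀, hτ₀⟩ := Fermat.Agent.JT3.fex_exists_isFrobeniusAt hp A hA
  obtain ⟨h, hh⟩ := hpX.2 τ₀ ⟨A, hA, hτ₀⟩
  obtain ⟨g, rfl⟩ := hsurj h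
  refine ⟨p, g⁻¹ • A, g⁻¹ * τ₀ * g, hp, hpS, s56c_liesOver_conj A hA g⁻¹, ?_, ?_⟩
  · have := s56c_isFrob_conj A hτ₀ g⁻¹
    rwa [inv_inv] at this
  · intro x hx
    have hτσ : φ (g⁻¹ * τ₀ * g) = φ σ := by
      rw [map_mul, map_mul, hh, map_inv]; group
    have h1 := hφx (g⁻¹ * τ₀ * g) ⟨x, hLL' hx⟩
    have h2 := hφx σ ⟨x, hLL' hx⟩
    rw [hτσ] at h1
    exact h1.symm.trans h2

end Fermat.Agent.S56
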