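/-
S56 / [CHEB] (helper24, prefix `s56c_`): a Frobenius element at `ℓ` that fixes the `M`-th roots of
unity (`M` prime to `ℓ`) forces `ℓ ≡ 1 mod M`.

`s56c_dvd_sub_one` : `A.IsFrobeniusAt τ ℓ`, `τ ∈ s56g_cyc M`, `M.Coprime ℓ` ⟹ `M ∣ ℓ - 1`.
-/
import Fermat.Agent.S56.Grp.Residual
import Fermat.Agent.S56.Cheb.Frob

set_option autoImplicit false

namespace Fermat.Agent.S56

open scoped Pointwise

local notation "Qbar" => AlgebraicClosure ℚ
local notation "GQ" => (AlgebraicClosure ℚ ≃ₐ[ℚ] AlgebraicClosure ℚ)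

/-- roots of unity lie in every valuation subring. -/
lemma s56c_root_mem (A : ValuationSubring Qbar) {x : Qbar} {M : ℕ} (hM : M ≠ 0)
    (hx : x ^ M = 1) : x ∈ A := by
  rcases A.mem_or_inv_mem x with h | h
  · exact h
  · have h1 : x = (x⁻¹) ^ (M - 1) := by
      have hx0 : x ≠ 0 := by
        rintro rfl
        rw [zero_pow hM] at hx
        exact zero_ne_one hx
      have hM1 : M = (M - 1) + 1 := by omega
      have h2 : x ^ (M - 1) * x = 1 := by rw [← pow_succ, ← hM1]; exact hx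
      rw [inv_pow]
      exact (eq_inv_of_mul_eq_one_right h2)
    rw [h1]
    exact pow_mem h _

/-- **Frobenius elements trivial on `ℚ(ζ_M)`**: if a Frobenius element at `ℓ` fixes all `M`-th roots
of unity and `M` is prime to `ℓ`, then `ℓ ≡ 1 mod M`. -/
theorem s56c_dvd_sub_one {ℓ : ℕ} (hℓ : ℓ.Prime) {M : ℕ} (hM : Nat.Coprime M ℓ)
    (A : ValuationSubring Qbar) (hA : A.LiesOverPrime ℓ) {τ : GQ} (hτ : A.IsFrobeniusAt τ ℓ)
    (hcyc : τ ∈ s56g_cyc M) : M ∣ ℓ - 1 := by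
  have hM0 : M ≠ 0 := by
    rintro rfl
    rw [Nat.coprime_zero_left] at hM
    exact hℓ.one_lt.ne' hM
  have : NeZero ((M : ℕ) : Qbar) := ⟨by exact_mod_cast hM0⟩
  have : HasEnoughRootsOfUnity Qbar M := IsSepClosed.hasEnoughRootsOfUnity Qbar M
  obtain ⟨ζ, hζ⟩ := HasEnoughRootsOfUnity.exists_primitiveRoot Qbar M
  by_contra hnd
  have hζM : ζ ^ M = 1 := hζ.pow_eq_one
  set η : Qbar := ζ ^ (ℓ - 1) with hη
  have hη1 : η ≠ 1 := fun h => hnd ((hζ.pow_eq_one_iff_dvd _).1 h)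
  have hηM : η ^ M = 1 := by rw [hη, ← pow_mul, mul_comm, pow_mul, hζM, one_pow]
  have hζA : ζ ∈ A := s56c_root_mem A hM0 hζM
  have hζinvA : ζ⁻¹ ∈ A := s56c_root_mem A hM0 (by rw [inv_pow, hζM, inv_one])
  have hηA : η ∈ A := s56c_root_mem A hM0 hηM
  -- the Frobenius congruence at `ζ`
  have hfr := ((s56c_isFrob_iff A).1 hτ).2 ζ hζA
  rw [hcyc ζ hζM] at hfr
  have hζ0 : ζ ≠ 0 := hζ.ne_zero hM0
  have hfac : ζ - ζ ^ ℓ = ζ * (1 - η) := by
    have hℓ1 : ℓ = (ℓ - 1) + 1 := by have := hℓ.one_lt; omega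
    rw [hη, mul_sub, mul_one, ← pow_succ', ← hℓ1]
  -- pass to the residue field
  set r := IsLocalRing.residue A with hr
  have hmem : (⟨ζ, hζA⟩ : A) * (1 - ⟨η, hηA⟩) ∈ IsLocalRing.maximalIdeal A := by
    rw [← ValuationSubring.coe_mem_nonunits_iff]
    have : (((⟨ζ, hζA⟩ : A) * (1 - ⟨η, hηA⟩) : A) : Qbar) = ζ * (1 - η) := rfl
    rw [this, ← hfac]
    exact hfr
  have hunit : IsUnit (⟨ζ, hζA⟩ : A) :=
    isUnit_iff_exists_inv.2 ⟨⟨ζ⁻¹, hζinvA⟩, Subtype.ext (mul_inv_cancel₀ hζ0)⟩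
  have hmem2 : (1 - ⟨η, hηA⟩ : A) ∈ IsLocalRing.maximalIdeal A :=
    ((IsLocalRing.maximalIdeal.isMaximal A).isPrime.mem_or_mem hmem).resolve_left
      (fun h => (IsLocalRing.mem_maximalIdeal _).1 h hunit)
  have hrη : r ⟨η, hηA⟩ = 1 := by
    have := (IsLocalRing.residue_eq_zero_iff _).2 hmem2
    rw [map_sub, map_one, sub_eq_zero] at this
    exact this.symm
  -- the geometric sum vanishes
  have hgeom : (∑ i ∈ Finset.range M, (⟨η, hηA⟩ : A) ^ i) = 0 := by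
    apply Subtype.ext
    have h1 := geom_sum_mul η M
    rw [hηM, sub_self] at h1
    have h2 : (∑ i ∈ Finset.range M, η ^ i) = 0 :=
      (mul_eq_zero.1 h1).resolve_right (sub_ne_zero.2 hη1)
    have h3 : ((∑ i ∈ Finset.range M, (⟨η, hηA⟩ : A) ^ i : A) : Qbar)
        = ∑ i ∈ Finset.range M, η ^ i := by
      push_cast
      rfl
    rw [h3, h2]
    rfl
  have hMres : ((M : ℕ) : IsLocalRing.ResidueField A) = 0 := by
    have := congrArg r hgeom
    rw [map_sum, map_zero] at this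
    simp only [map_pow, hrη, one_pow, Finset.sum_const, Finset.card_range, nsmul_eq_mul,
      mul_one] at this
    exact this
  have hℓres : ((ℓ : ℕ) : IsLocalRing.ResidueField A) = 0 := by
    have h1 : ((ℓ : ℕ) : Qbar) ∈ A := A.nonunits_le hA
    have h2 : (⟨((ℓ : ℕ) : Qbar), h1⟩ : A) ∈ IsLocalRing.maximalIdeal A :=
      ValuationSubring.coe_mem_nonunits_iff.1 hA
    have h3 := (IsLocalRing.residue_eq_zero_iff _).2 h2
    have h4 : (⟨((ℓ : ℕ) : Qbar), h1⟩ : A) = ((ℓ : ℕ) : A) := Subtype.ext (by simp)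
    rw [h4, map_natCast] at h3
    exact h3
  obtain ⟨a, b, hab⟩ := Nat.Coprime.isCoprime hM
  have h1 : ((a * (M : ℤ) + b * (ℓ : ℤ) : ℤ) : IsLocalRing.ResidueField A) = 1 := by
    rw [hab]; simp
  push_cast at h1
  rw [hMres, hℓres, mul_zero, mul_zero, add_zero] at h1
  exact zero_ne_one h1

end Fermat.Agent.S56
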