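/-
S56 / [CHEB] (helper24, prefix `s56c_`): the Chebotarev step of the Taylor–Wiles selection, in the
language of the prelude.

* `s56c_cycField M`   : `ℚ(ζ_M) ⊆ Q̄` (generated by the `M`-th roots of unity), finite over `ℚ`;
* `s56c_mem_cyc_of_eq`: `τ = σ` on `ℚ(ζ_M)`, `σ ∈ s56g_cyc M` ⟹ `τ ∈ s56g_cyc M`;
* `s56c_tw_prime`     : for `σ ∈ G_{ℚ(ζ_{p^m})}`, any finite `L ⊆ Q̄` and any finite set `S` of primes
                        there are a prime `ℓ ∉ S`, `ℓ ≠ p`, `p ^ m ∣ ℓ - 1`, a place `A` over `ℓ` and a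
                        Frobenius element `τ` at `A` with `τ = σ` on `L` and `τ ∈ G_{ℚ(ζ_{p^m})}`.
-/
import Fermat.Agent.S56.Cheb.Exists
import Fermat.Agent.S56.Cheb.Cyc

set_option autoImplicit false

namespace Fermat.Agent.S56

open scoped Pointwise

local notation "Qbar" => AlgebraicClosure ℚ
local notation "GQ" => (AlgebraicClosure ℚ ≃ₐ[ℚ] AlgebraicClosure ℚ)

/-- `ℚ(ζ_M)` inside `Q̄`. -/
noncomputable def s56c_cycField (M : ℕ) : IntermediateField ℚ Qbar :=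
  IntermediateField.adjoin ℚ ((Polynomial.nthRootsFinset M (1 : Qbar) : Finset Qbar) : Set Qbar)

theorem s56c_root_mem_cycField {M : ℕ} (hM : 0 < M) {ζ : Qbar} (hζ : ζ ^ M = 1) :
    ζ ∈ s56c_cycField M :=
  IntermediateField.subset_adjoin ℚ _
    (Finset.mem_coe.2 ((Polynomial.mem_nthRootsFinset hM (1 : Qbar)).2 hζ))

theorem s56c_cycField_finiteDimensional (M : ℕ) : FiniteDimensional ℚ (s56c_cycField M) := by
  have : Algebra.IsAlgebraic ℚ Qbar := AlgebraicClosure.isAlgebraic ℚ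
  exact IntermediateField.finiteDimensional_adjoin (fun x _ => Algebra.IsIntegral.isIntegral x)

theorem s56c_mem_cyc_of_eq {M : ℕ} (hM : 0 < M) {σ τ : GQ} (hσ : σ ∈ s56g_cyc M)
    (h : ∀ x ∈ s56c_cycField M, τ x = σ x) : τ ∈ s56g_cyc M := by
  intro ζ hζ
  rw [h ζ (s56c_root_mem_cycField hM hζ)]
  exact hσ ζ hζ

/-- **the Chebotarev step of the Taylor–Wiles selection.** -/
theorem s56c_tw_prime (p : ℕ) (hp : p.Prime) (m : ℕ) (L : IntermediateField ℚ Qbar)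
    (hL : FiniteDimensional ℚ L) (S : Finset ℕ) (σ : GQ) (hσ : σ ∈ s56g_cyc (p ^ m)) :
    ∃ (ℓ : ℕ) (A : ValuationSubring Qbar) (τ : GQ), ℓ.Prime ∧ ℓ ∉ S ∧ ℓ ≠ p ∧ p ^ m ∣ ℓ - 1 ∧
      A.LiesOverPrime ℓ ∧ A.IsFrobeniusAt τ ℓ ∧ τ ∈ s56g_cyc (p ^ m) ∧ ∀ x ∈ L, τ x = σ x := by
  classical
  have hM : 0 < p ^ m := pow_pos hp.pos m
  have := hL
  have := s56c_cycField_finiteDimensional (p ^ m)
  have hfd : FiniteDimensional ℚ ↥(L ⊔ s56c_cycField (p ^ m)) :=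
    IntermediateField.finiteDimensional_sup _ _
  obtain ⟨ℓ, A, τ, hℓ, hℓS, hA, hτ, hτσ⟩ :=
    s56c_exists (L ⊔ s56c_cycField (p ^ m)) hfd (insert p S) σ
  have hℓp : ℓ ≠ p := fun h => hℓS (h ▸ Finset.mem_insert_self _ _)
  have hℓS' : ℓ ∉ S := fun h => hℓS (Finset.mem_insert_of_mem h)
  have hτcyc : τ ∈ s56g_cyc (p ^ m) :=
    s56c_mem_cyc_of_eq hM hσ (fun x hx => hτσ x ((le_sup_right : _ ≤ L ⊔ _) hx))
  have hcop : Nat.Coprime (p ^ m) ℓ :=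
    Nat.Coprime.pow_left m ((Nat.coprime_primes hp hℓ).2 (Ne.symm hℓp))
  exact ⟨ℓ, A, τ, hℓ, hℓS', hℓp, s56c_dvd_sub_one hℓ hcop A hA hτ hτcyc, hA, hτ, hτcyc,
    fun x hx => hτσ x ((le_sup_left : L ≤ L ⊔ _) hx)⟩

end Fermat.Agent.S56
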