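/-
S56 / [CHEB] (helper24, prefix `s56c_`): the determinant of a framed residual representation with
cyclotomic determinant.

* `s56c_cycloExp_spec` : the defining property of the prelude's `cycloExp`;
* `s56c_det_of_pow`    : `σ μ = μ ^ a` on `μ_p` ⟹ `det (rb σ) = a` in `k` (`char k = p`);
* `s56c_det_eq_chi`    : `det (rb σ) = algebraMap (ZMod p) k (cycloChar p σ)`;
* `s56c_det_one_of_cyc`: `det (rb σ) = 1` for `σ` fixing `μ_p`;
* `s56c_exists_pow`    : for `a` prime to `p` some `σ ∈ G_ℚ` acts on `μ_p` by `μ ↦ μ ^ a`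
                         (irreducibility of the cyclotomic polynomial);
* `s56c_hdet5`         : for `p = 5` some `det (rb σ)` has square `≠ 1`.
-/
import Mathlib
import Fermat.Agent.S53.FramedResidual
import Fermat.Agent.S56.Grp.Residual
import Fermat.Prelude.Def_ExtCitation_KummerBridge
import Fermat.Prelude.Def_GaloisRep_LocalConditions

set_option autoImplicit false

namespace Fermat.Agent.S56

open ExtCitation Polynomial

local notation "Qb" => AlgebraicClosure ℚ
local notation "GQ" => (AlgebraicClosure ℚ ≃ₐ[ℚ] AlgebraicClosure ℚ)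

variable (p : ℕ) [hp : Fact p.Prime]

/-- the defining property of the prelude's `cycloExp`. -/
theorem s56c_cycloExp_spec (σ : GQ) (μ : Qb) (hμ : μ ^ p = 1) : σ μ = μ ^ cycloExp p σ := by
  have : NeZero p := ⟨hp.out.ne_zero⟩
  have hu : IsUnit μ := IsUnit.of_pow_eq_one hμ (NeZero.ne p)
  obtain ⟨u, rfl⟩ := hu
  have hmem : u ∈ rootsOfUnity p Qb := by
    rw [mem_rootsOfUnity]
    exact Units.ext (by simpa using hμ)
  exact modularCyclotomicCharacter.spec Qb (card_rootsOfUnity_eq_self p)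
    (σ : Qb ≃+* Qb) hmem

variable {k : Type} [Field k] [CharP k p] (rb : Fermat.Agent.S53.FramedResidual k)

omit hp in
/-- `σ μ = μ ^ a` on `μ_p` ⟹ `det (rb σ) = a`. -/
theorem s56c_det_of_pow
    (hdet : (GaloisRepAdic.ofResidualGaloisRep rb.toResidualGaloisRep).DetIsCyclotomic p)
    (σ : GQ) (a : ℕ) (h : ∀ μ : Qb, μ ^ p = 1 → σ μ = μ ^ a) : (rb σ).det = (a : k) := by
  have h1 := hdet.2 1 σ a (fun μ hμ => h μ (by rwa [pow_one] at hμ))
  have h2 : LinearMap.det ((GaloisRepAdic.ofResidualGaloisRep rb.toResidualGaloisRep).ρ σ) =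
      (rb σ).det := LinearMap.det_toLin' (rb σ)
  rw [h2, pow_one, CharP.cast_eq_zero, Ideal.span_singleton_zero, Ideal.mem_bot, sub_eq_zero] at h1
  exact h1

/-- `det (rb σ)` is the mod `p` cyclotomic character. -/
theorem s56c_det_eq_chi [Algebra (ZMod p) k]
    (hdet : (GaloisRepAdic.ofResidualGaloisRep rb.toResidualGaloisRep).DetIsCyclotomic p)
    (σ : GQ) : (rb σ).det = algebraMap (ZMod p) k (cycloChar p σ : ZMod p) := by
  rw [s56c_det_of_pow p rb hdet σ (cycloExp p σ) (s56c_cycloExp_spec p σ), coe_cycloChar,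
    map_natCast]

omit hp in
/-- `det (rb σ) = 1` for `σ` fixing the `p`-th roots of unity. -/
theorem s56c_det_one_of_cyc
    (hdet : (GaloisRepAdic.ofResidualGaloisRep rb.toResidualGaloisRep).DetIsCyclotomic p)
    (σ : GQ) (hσ : σ ∈ s56g_cyc p) : (rb σ).det = 1 := by
  rw [s56c_det_of_pow p rb hdet σ 1 (fun μ hμ => by rw [pow_one]; exact hσ μ hμ), Nat.cast_one]

omit [CharP k p] in
/-- for `a` prime to `p` some `σ ∈ G_ℚ` raises the `p`-th roots of unity to the power `a`. -/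
theorem s56c_exists_pow (a : ℕ) (ha : a.Coprime p) :
    ∃ σ : GQ, ∀ μ : Qb, μ ^ p = 1 → σ μ = μ ^ a := by
  have : NeZero p := ⟨hp.out.ne_zero⟩
  obtain ⟨ζ, hζ⟩ := HasEnoughRootsOfUnity.exists_primitiveRoot Qb p
  have hζa : IsPrimitiveRoot (ζ ^ a) p := hζ.pow_of_coprime a ha
  have h1 : minpoly ℚ (ζ ^ a) = minpoly ℚ ζ := by
    rw [← Polynomial.cyclotomic_eq_minpoly_rat hζ hp.out.pos,
      ← Polynomial.cyclotomic_eq_minpoly_rat hζa hp.out.pos]
  have : Algebra.IsAlgebraic ℚ Qb := AlgebraicClosure.isAlgebraic ℚ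
  have : IsAlgClosure ℚ Qb := ⟨inferInstance, inferInstance⟩
  have : Normal ℚ Qb := inferInstance
  obtain ⟨σ, hσ⟩ := IsConjRoot.exists_algEquiv (K := ℚ) (x := ζ ^ a) (y := ζ) h1
  refine ⟨σ, fun μ hμ => ?_⟩
  obtain ⟨i, -, rfl⟩ := hζ.eq_pow_of_pow_eq_one hμ
  rw [map_pow, hσ, ← pow_mul, ← pow_mul, mul_comm]

/-- for `p = 5` some `det (rb σ)` has square `≠ 1`. -/
theorem s56c_hdet5
    (hdet : (GaloisRepAdic.ofResidualGaloisRep rb.toResidualGaloisRep).DetIsCyclotomic p)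
    (h5 : p = 5) : ∃ σ : GQ, (rb σ).det ^ 2 ≠ 1 := by
  obtain ⟨σ, hσ⟩ := s56c_exists_pow p 2 (by rw [h5]; decide)
  refine ⟨σ, ?_⟩
  rw [s56c_det_of_pow p rb hdet σ 2 hσ]
  intro h
  have h3 : ((3 : ℕ) : k) = 0 := by
    have : ((2 : ℕ) : k) ^ 2 - 1 = ((3 : ℕ) : k) := by push_cast; ring
    rw [← this, h, sub_self]
  rw [CharP.cast_eq_zero_iff k p, h5] at h3
  omega

end Fermat.Agent.S56
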