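/-
S56 / [CHEB] (helper24, prefix `s56c_`): the bridge from helper10/helper12's `s56hv_main`
(`H¹(Γ, ad⁰ ⊗ det) = 0` for `Γ ≤ GL₂(k)`) to the input `s56g_H1Van rb` of `s56g_select`.
-/
import Mathlib
import Fermat.Agent.S56.H1Van.Main
import Fermat.Agent.S56.Grp.Select

set_option autoImplicit false

namespace Fermat.Agent.S56

open Matrix OnePoint Matrix.GeneralLinearGroup Polynomial

local notation "GQ" => (AlgebraicClosure ℚ ≃ₐ[ℚ] AlgebraicClosure ℚ)

variable {k : Type} [Field k] (rb : Fermat.Agent.S53.FramedResidual k)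

/-- `rb` with values in `GL₂(k)`. -/
noncomputable def s56c_gl : GQ →* GL (Fin 2) k := rb.toMonoidHom.toHomUnits

lemma s56c_gl_coe (σ : GQ) : ((s56c_gl rb σ : GL (Fin 2) k) : Matrix (Fin 2) (Fin 2) k) = rb σ :=
  rfl

lemma s56c_adjugate (σ : GQ) : adjugate (rb σ) = (rb σ).det • rb σ⁻¹ := by
  have h1 : rb σ⁻¹ * (rb σ * adjugate (rb σ)) = rb σ⁻¹ * ((rb σ).det • 1) := by
    rw [Matrix.mul_adjugate]
  rw [← Matrix.mul_assoc, s56g_fr_inv_mul, Matrix.one_mul, Matrix.mul_smul, Matrix.mul_one] at h1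
  exact h1

/-- the twisted action in adjugate form. -/
lemma s56c_twRep_adj (σ : GQ) (A : Matrix (Fin 2) (Fin 2) k) :
    s56g_twRep rb σ A = rb σ * A * adjugate (rb σ) := by
  rw [s56g_twRep_apply, s56c_adjugate, Matrix.mul_smul]

/-- an upper triangular matrix semi-commutes with `E₁₂`. -/
lemma s56c_E_mul (U : Matrix (Fin 2) (Fin 2) k) (hU : U 1 0 = 0) :
    (!![0, 1; 0, 0] : Matrix (Fin 2) (Fin 2) k) * U = U 1 1 • !![0, 1; 0, 0] ∧
    U * (!![0, 1; 0, 0] : Matrix (Fin 2) (Fin 2) k) = U 0 0 • !![0, 1; 0, 0] := by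
  constructor
  · ext i j
    fin_cases i <;> fin_cases j <;> simp [Matrix.mul_apply, Fin.sum_univ_two, hU]
  · ext i j
    fin_cases i <;> fin_cases j <;> simp [Matrix.mul_apply, Fin.sum_univ_two, hU]

/-- **no stable line**: the image of `rb` fixes no point of `ℙ¹(k)`. -/
theorem s56c_no_fixed_point [DecidableEq k] [Fintype k] (habs : rb.toResidualGaloisRep.IsAbsolutelyIrreducible)
    (hTW : s56g_TWHyp rb.toResidualGaloisRep) (c : OnePoint k) :
    ∃ g ∈ (s56c_gl rb).range, g • c ≠ c := by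
  by_contra hcon
  push Not at hcon
  obtain ⟨h, hh⟩ := s56hc_exists_to_infty c
  set H : Matrix (Fin 2) (Fin 2) k := (h : Matrix (Fin 2) (Fin 2) k) with hH
  set H' : Matrix (Fin 2) (Fin 2) k := ((h⁻¹ : GL (Fin 2) k) : Matrix (Fin 2) (Fin 2) k) with hH'
  have hHH' : H * H' = 1 := by
    rw [hH, hH', ← Units.val_mul, mul_inv_cancel, Units.val_one]
  have hH'H : H' * H = 1 := by
    rw [hH, hH', ← Units.val_mul, inv_mul_cancel, Units.val_one]
  set E : Matrix (Fin 2) (Fin 2) k := !![0, 1; 0, 0] with hE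
  -- every conjugate is upper triangular
  have hup : ∀ σ : GQ, (H * rb σ * H') 1 0 = 0 := by
    intro σ
    have hfix : (h * s56c_gl rb σ * h⁻¹ : GL (Fin 2) k) • (∞ : OnePoint k) = ∞ := by
      rw [mul_smul, mul_smul, ← hh, inv_smul_smul, hcon _ ⟨σ, rfl⟩]
    exact smul_infty_eq_self_iff.mp hfix
  refine s56g_fr_noSemi rb habs hTW (H' * E * H) ?_ ?_
  · rintro ⟨a, ha⟩
    have h1 : E = a • (1 : Matrix (Fin 2) (Fin 2) k) := by
      have := congrArg (fun X => H * X * H') ha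
      beta_reduce at this
      rw [Matrix.mul_smul, Matrix.smul_mul, Matrix.mul_one, hHH'] at this
      rw [← this]
      calc E = (H * H') * E * (H * H') := by rw [hHH', Matrix.one_mul, Matrix.mul_one]
        _ = H * (H' * E * H) * H' := by simp only [Matrix.mul_assoc]
    have h2 := congrFun (congrFun h1 0) 1
    simp [hE] at h2
  · intro σ
    obtain ⟨h11, h00⟩ := s56c_E_mul (H * rb σ * H') (hup σ)
    have hne : (H * rb σ * H') 0 0 ≠ 0 := by
      have := (s56hv_diag_ne_zero (h * s56c_gl rb σ * h⁻¹ : GL (Fin 2) k) (hup σ)).1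
      exact this
    refine ⟨(H * rb σ * H') 1 1 / (H * rb σ * H') 0 0, ?_⟩
    have e1 : H' * E * H * rb σ = H' * (E * (H * rb σ * H')) * H := by
      calc H' * E * H * rb σ = H' * E * H * rb σ * (H' * H) := by rw [hH'H, Matrix.mul_one]
        _ = H' * (E * (H * rb σ * H')) * H := by simp only [Matrix.mul_assoc]
    have e2 : rb σ * (H' * E * H) = H' * ((H * rb σ * H') * E) * H := by
      calc rb σ * (H' * E * H) = (H' * H) * rb σ * (H' * E * H) := by rw [hH'H, Matrix.one_mul]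
        _ = H' * ((H * rb σ * H') * E) * H := by simp only [Matrix.mul_assoc]
    rw [e1, e2, h11, h00, Matrix.mul_smul, Matrix.smul_mul, Matrix.mul_smul, Matrix.smul_mul,
      smul_smul, div_mul_cancel₀ _ hne]

/-- **[H1-VAN] for `rb`**: a trace-zero cocycle of `ad⁰(rb) ⊗ det` vanishing on `ker rb` is a
coboundary. -/
theorem s56c_h1van (p : ℕ) [Fact p.Prime] [CharP k p] [Finite k] (hp2 : p ≠ 2)
    (habs : rb.toResidualGaloisRep.IsAbsolutelyIrreducible)
    (hTW : s56g_TWHyp rb.toResidualGaloisRep)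
    (hsplit : ∀ σ : GQ, ∃ α β : k, (rb σ).charpoly = (X - C α) * (X - C β))
    (hdet5 : p = 5 → ∃ σ : GQ, (rb σ).det ^ 2 ≠ 1) : s56g_H1Van rb := by
  classical
  let _ : Fintype k := Fintype.ofFinite k
  intro ψ htr hψ hker
  -- `ψ` factors through `rb`
  have hwd : ∀ σ τ : GQ, rb σ = rb τ → ψ σ = ψ τ := by
    intro σ τ hστ
    have h1 : rb (τ⁻¹ * σ) = 1 := by
      rw [rb.map_mul, hστ, s56g_fr_inv_mul]
    have h2 : σ = τ * (τ⁻¹ * σ) := by group
    rw [h2, hψ τ (τ⁻¹ * σ), hker _ h1, map_zero, add_zero]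
  set u : GQ →* GL (Fin 2) k := s56c_gl rb with hu
  let ψ' : GL (Fin 2) k → Matrix (Fin 2) (Fin 2) k :=
    fun g => if h : ∃ σ : GQ, u σ = g then ψ h.choose else 0
  have hψ'u : ∀ σ : GQ, ψ' (u σ) = ψ σ := by
    intro σ
    have hex : ∃ τ : GQ, u τ = u σ := ⟨σ, rfl⟩
    show (if h : ∃ τ : GQ, u τ = u σ then ψ h.choose else 0) = ψ σ
    rw [dif_pos hex]
    exact hwd _ _ (congrArg (fun g : GL (Fin 2) k => (g : Matrix (Fin 2) (Fin 2) k)) hex.choose_spec)
  obtain ⟨m, hm0, hm⟩ := s56hv_main (p := p) hp2 u.range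
    (by
      rintro _ ⟨σ, rfl⟩
      exact hsplit σ)
    (s56c_no_fixed_point rb habs hTW)
    (fun h5 => by
      obtain ⟨σ, hσ⟩ := hdet5 h5
      exact ⟨u σ, ⟨σ, rfl⟩, hσ⟩)
    ψ'
    (by
      rintro _ ⟨σ, rfl⟩
      rw [hψ'u]
      exact htr σ)
    (by
      rintro _ ⟨σ, rfl⟩ _ ⟨τ, rfl⟩
      rw [← map_mul, hψ'u, hψ'u, hψ'u, hψ σ τ, s56c_twRep_adj]
      rfl)
  refine ⟨m, hm0, fun σ => ?_⟩
  rw [← hψ'u, hm (u σ) ⟨σ, rfl⟩, s56c_twRep_adj]
  rfl

end Fermat.Agent.S56
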