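/-
S56 / [CHEB] (helper24, prefix `s56c_`): the trace pairing `ad⁰ × ad⁰ → 𝔽_p`,
`(X, Y) ↦ Tr_{k/𝔽_p}(tr(X Y))`, identifies `ad⁰ ⊗ det` with the Cartier dual `(ad⁰)^*(1)`.

* `s56c_Phi p B : ad⁰ →ₗ[ZMod p] Module.Dual (ZMod p) ad⁰`, bijective for `k` finite, `2 ≠ 0`;
* `s56c_Phi_equiv` : `Φ` intertwines `Y ↦ det(B g) • (B g * Y * B g⁻¹)` with the action of
  `(ad⁰)^*(1) = s56gw_dual (s56t_ad0 p B)` when `det ∘ B` is the mod `p` cyclotomic character.
-/
import Mathlib
import Fermat.Agent.S56.Tan.Rep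

set_option autoImplicit false

namespace Fermat.Agent.S56

open CategoryTheory groupCohomology ExtCitation Matrix Module

local notation "GQ" => (AlgebraicClosure ℚ ≃ₐ[ℚ] AlgebraicClosure ℚ)

noncomputable section

variable {k : Type} [Field k] (p : ℕ) [Fact p.Prime] [Algebra (ZMod p) k]

/-- the trace pairing on `M₂(k)` with values in `𝔽_p`. -/
def s56c_tp (X Y : Matrix (Fin 2) (Fin 2) k) : ZMod p :=
  Algebra.trace (ZMod p) k (Matrix.trace (X * Y))

lemma s56c_tp_add_left (X X' Y : Matrix (Fin 2) (Fin 2) k) :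
    s56c_tp p (X + X') Y = s56c_tp p X Y + s56c_tp p X' Y := by
  rw [s56c_tp, s56c_tp, s56c_tp, Matrix.add_mul, Matrix.trace_add, map_add]

lemma s56c_tp_add_right (X Y Y' : Matrix (Fin 2) (Fin 2) k) :
    s56c_tp p X (Y + Y') = s56c_tp p X Y + s56c_tp p X Y' := by
  rw [s56c_tp, s56c_tp, s56c_tp, Matrix.mul_add, Matrix.trace_add, map_add]

lemma s56c_tp_smul_left (a : ZMod p) (X Y : Matrix (Fin 2) (Fin 2) k) :
    s56c_tp p (a • X) Y = a • s56c_tp p X Y := by
  rw [s56c_tp, s56c_tp, Matrix.smul_mul, Matrix.trace_smul, map_smul]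

lemma s56c_tp_smul_right (a : ZMod p) (X Y : Matrix (Fin 2) (Fin 2) k) :
    s56c_tp p X (a • Y) = a • s56c_tp p X Y := by
  rw [s56c_tp, s56c_tp, Matrix.mul_smul, Matrix.trace_smul, map_smul]

lemma s56c_tp_ksmul_left (c : k) (X Y : Matrix (Fin 2) (Fin 2) k) :
    s56c_tp p (c • X) Y = Algebra.trace (ZMod p) k (c * Matrix.trace (X * Y)) := by
  rw [s56c_tp, Matrix.smul_mul, Matrix.trace_smul, smul_eq_mul]

lemma s56c_tp_ksmul_right (c : k) (X Y : Matrix (Fin 2) (Fin 2) k) :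
    s56c_tp p X (c • Y) = Algebra.trace (ZMod p) k (c * Matrix.trace (X * Y)) := by
  rw [s56c_tp, Matrix.mul_smul, Matrix.trace_smul, smul_eq_mul]

/-- the trace pairing is nondegenerate on trace-zero matrices. -/
theorem s56c_tp_nondeg [Finite k] (h2 : (2 : k) ≠ 0) (Y : Matrix (Fin 2) (Fin 2) k)
    (hY : Matrix.trace Y = 0)
    (h : ∀ X : Matrix (Fin 2) (Fin 2) k, Matrix.trace X = 0 → s56c_tp p X Y = 0) : Y = 0 := by
  -- `tr (X Y) = 0` for all trace-zero `X`
  have h1 : ∀ X : Matrix (Fin 2) (Fin 2) k, Matrix.trace X = 0 → Matrix.trace (X * Y) = 0 := by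
    intro X hX
    refine (traceForm_nondegenerate (ZMod p) k).1 _ (fun c => ?_)
    rw [Algebra.traceForm_apply, mul_comm, ← s56c_tp_ksmul_left]
    exact h _ (by rw [Matrix.trace_smul, hX, smul_zero])
  have e1 := h1 !![0, 1; 0, 0] (by simp [Matrix.trace_fin_two])
  have e2 := h1 !![0, 0; 1, 0] (by simp [Matrix.trace_fin_two])
  have e3 := h1 !![1, 0; 0, -1] (by simp [Matrix.trace_fin_two])
  simp only [Matrix.trace_fin_two, Matrix.mul_apply, Fin.sum_univ_two, Matrix.of_apply,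
    Matrix.cons_val', Matrix.cons_val_zero, Matrix.cons_val_one, Matrix.empty_val',
    Matrix.cons_val_fin_one, zero_mul, one_mul, zero_add, add_zero, neg_mul] at e1 e2 e3
  rw [Matrix.trace_fin_two] at hY
  have h00 : Y 0 0 = 0 := by
    have : (2 : k) * Y 0 0 = 0 := by linear_combination hY + e3
    exact (mul_eq_zero.1 this).resolve_left h2
  have h11 : Y 1 1 = 0 := by rw [h00, zero_add] at hY; exact hY
  ext i j
  fin_cases i <;> fin_cases j
  · exact h00
  · exact e2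
  · exact e1
  · exact h11

variable (B : GQ →* Matrix (Fin 2) (Fin 2) k)

lemma s56c_val_smul (a : ZMod p) (x : (s56t_ad0 p B).V) :
    s56t_val p B (a • x) = a • s56t_val p B x := rfl

/-- **the map `ad⁰ → (ad⁰)^*`** of the trace pairing. -/
def s56c_Phi : (s56t_ad0 p B).V →ₗ[ZMod p] Module.Dual (ZMod p) (s56t_ad0 p B).V where
  toFun b :=
    { toFun := fun a => s56c_tp p (s56t_val p B a) (s56t_val p B b)
      map_add' := fun a a' => by rw [s56t_val_add, s56c_tp_add_left]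
      map_smul' := fun c a => by rw [s56c_val_smul, s56c_tp_smul_left]; rfl }
  map_add' b b' := LinearMap.ext fun a => by
    show s56c_tp p (s56t_val p B a) (s56t_val p B (b + b')) =
      s56c_tp p (s56t_val p B a) (s56t_val p B b) + s56c_tp p (s56t_val p B a) (s56t_val p B b')
    rw [s56t_val_add, s56c_tp_add_right]
  map_smul' c b := LinearMap.ext fun a => by
    show s56c_tp p (s56t_val p B a) (s56t_val p B (c • b)) =
      c • s56c_tp p (s56t_val p B a) (s56t_val p B b)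
    rw [s56c_val_smul, s56c_tp_smul_right]

lemma s56c_Phi_apply (a b : (s56t_ad0 p B).V) :
    s56c_Phi p B b a = s56c_tp p (s56t_val p B a) (s56t_val p B b) := rfl

theorem s56c_Phi_injective [Finite k] (h2 : (2 : k) ≠ 0) : Function.Injective (s56c_Phi p B) := by
  rw [injective_iff_map_eq_zero]
  intro b hb
  apply s56t_val_injective p B
  rw [s56t_val_zero]
  refine s56c_tp_nondeg p h2 _ (s56t_trace_val p B b) (fun X hX => ?_)
  have := congrArg (fun f : Module.Dual (ZMod p) (s56t_ad0 p B).V => f (s56t_mkV p B X hX)) hb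
  exact this

theorem s56c_Phi_bijective [Finite k] (h2 : (2 : k) ≠ 0) : Function.Bijective (s56c_Phi p B) := by
  have hinj := s56c_Phi_injective p B h2
  exact ⟨hinj, (LinearMap.injective_iff_surjective_of_finrank_eq_finrank
    Subspace.dual_finrank_eq.symm).1 hinj⟩

/-- **`ad⁰ ≃ (ad⁰)^*`** by the trace pairing. -/
def s56c_PhiE [Finite k] (h2 : (2 : k) ≠ 0) :
    (s56t_ad0 p B).V ≃ₗ[ZMod p] Module.Dual (ZMod p) (s56t_ad0 p B).V :=
  LinearEquiv.ofBijective (s56c_Phi p B) (s56c_Phi_bijective p B h2)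

lemma s56c_PhiE_apply [Finite k] (h2 : (2 : k) ≠ 0) (b : (s56t_ad0 p B).V) :
    s56c_PhiE p B h2 b = s56c_Phi p B b := rfl

/-- **equivariance**: `Φ` carries `Y ↦ det(B g) • (B g * Y * B g⁻¹)` to the action of `g` on the
Cartier dual `(ad⁰)^*(1)`. -/
theorem s56c_Phi_equiv
    (hdet : ∀ g : GQ, (B g).det = algebraMap (ZMod p) k (cycloChar p g : ZMod p))
    (g : GQ) (b b' : (s56t_ad0 p B).V)
    (hb' : s56t_val p B b' = (B g).det • (B g * s56t_val p B b * B g⁻¹)) :
    (s56gw_dual (s56t_ad0 p B)).ρ g (s56c_Phi p B b) = s56c_Phi p B b' := by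
  refine LinearMap.ext fun a => ?_
  show (cycloChar p g : ZMod p) • s56c_Phi p B b ((s56t_ad0 p B).ρ g⁻¹ a) = s56c_Phi p B b' a
  rw [s56c_Phi_apply, s56c_Phi_apply, s56t_val_rho, hb', inv_inv, s56c_tp_ksmul_right, hdet,
    ← Algebra.smul_def, map_smul, s56c_tp]
  congr 2
  rw [show B g⁻¹ * s56t_val p B a * B g * s56t_val p B b =
      B g⁻¹ * (s56t_val p B a * B g * s56t_val p B b) by simp only [Matrix.mul_assoc],
    Matrix.trace_mul_comm]
  simp only [Matrix.mul_assoc]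

/-- `Φ⁻¹` carries the action of `g` on `(ad⁰)^*(1)` to `Y ↦ det(B g) • (B g * Y * B g⁻¹)`. -/
theorem s56c_symm_rho [Finite k] (h2 : (2 : k) ≠ 0)
    (hdet : ∀ g : GQ, (B g).det = algebraMap (ZMod p) k (cycloChar p g : ZMod p))
    (g : GQ) (y : Module.Dual (ZMod p) (s56t_ad0 p B).V) :
    s56t_val p B ((s56c_PhiE p B h2).symm ((s56gw_dual (s56t_ad0 p B)).ρ g y)) =
      (B g).det • (B g * s56t_val p B ((s56c_PhiE p B h2).symm y) * B g⁻¹) := by
  set b : (s56t_ad0 p B).V := (s56c_PhiE p B h2).symm y with hb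
  have hy : y = s56c_Phi p B b := by
    rw [hb, ← s56c_PhiE_apply p B h2, LinearEquiv.apply_symm_apply]
  have htr : Matrix.trace ((B g).det • (B g * s56t_val p B b * B g⁻¹)) = 0 := by
    rw [Matrix.trace_smul, s56t_trace_conj, s56t_trace_val, smul_zero]
  have h1 := s56c_Phi_equiv p B hdet g b (s56t_mkV p B _ htr) rfl
  rw [hy, h1, ← s56c_PhiE_apply p B h2, LinearEquiv.symm_apply_apply, s56t_val_mkV]

end

end Fermat.Agent.S56
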