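/-
S56 / [CHEB] (helper24, prefix `s56c_`): **the Chebotarev seam `s56a_Cheb_stmt` of
`S56/Asm/Seams.lean`**.

Inputs: helper15's `s56ce_gw` (element → primes, `S56/ChebEl/Bridge.lean`), the group-theoretic
selection `s56g_select` (`S56/Grp/Select.lean`), helper10/helper12's `s56hv_main`
(`H¹(Γ, ad⁰ ⊗ det) = 0`, through `S56/Cheb/H1VanBridge.lean`) and the trace pairing
`ad⁰ ⊗ det ≃ (ad⁰)^*(1)` (`S56/Cheb/Pairing.lean`).
-/
import Mathlib
import Fermat.Agent.S56.Asm.Seams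
import Fermat.Agent.S56.Asm.AdInv
import Fermat.Agent.S56.ChebEl.Bridge
import Fermat.Agent.S56.Cheb.Det
import Fermat.Agent.S56.Cheb.H1VanBridge
import Fermat.Agent.S56.Cheb.Pairing
import Fermat.Agent.S55.DualTwistHyp

set_option autoImplicit false

namespace Fermat.Agent.S56

open CategoryTheory groupCohomology ExtCitation Matrix Module Polynomial
open Fermat.Agent.S53

local notation "GQ" => (AlgebraicClosure ℚ ≃ₐ[ℚ] AlgebraicClosure ℚ)

/-- **the group-theoretic selection for the cocycles of `(ad⁰ rb)^*(1)`**: a cocycle which is not a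
coboundary is not a coboundary at some `σ₀ ∈ G_{ℚ(ζ_{p^{n+1}})}` with `rb σ₀` regular. -/
theorem s56c_sel (p : ℕ) [hp : Fact p.Prime] (hp2 : p ≠ 2) {k : Type} [Field k] [Finite k]
    [Algebra (ZMod p) k] (rb : FramedResidual k) (hyp : s56a_Hyp p rb.toResidualGaloisRep) (n : ℕ)
    (c : GQ → (s56gw_dual (s56a_ad p rb)).V)
    (hc : ∀ g h : GQ, c (g * h) = (s56gw_dual (s56a_ad p rb)).ρ g (c h) + c g)
    (hne : ¬ ∃ m : (s56gw_dual (s56a_ad p rb)).V,
      ∀ g : GQ, c g = (s56gw_dual (s56a_ad p rb)).ρ g m - m) :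
    ∃ σ₀ ∈ s56g_cyc (p ^ (n + 1)), s56ce_Reg rb.toResidualGaloisRep σ₀ ∧
      ¬ s56ce_Cob (s56gw_dual (s56a_ad p rb)).ρ c σ₀ := by
  obtain ⟨habs, hdet, hsplit, hTW⟩ := hyp
  have hchar : CharP k p := charP_of_injective_algebraMap (algebraMap (ZMod p) k).injective p
  have h2ne : (2 : k) ≠ 0 := by
    intro h
    have h2 : ((2 : ℕ) : k) = 0 := by exact_mod_cast h
    rw [CharP.cast_eq_zero_iff k p] at h2
    exact hp2 ((Nat.prime_dvd_prime_iff_eq hp.out Nat.prime_two).1 h2)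
  have hsplit' : ∀ σ : GQ, ∃ α β : k, (rb σ).charpoly = (X - C α) * (X - C β) := fun σ => by
    obtain ⟨α, β, h⟩ := hsplit σ
    exact ⟨α, β, (s56g_fr_charpoly rb σ).symm.trans h⟩
  have hdetχ : ∀ g : GQ, (rb.toMonoidHom g).det = algebraMap (ZMod p) k (cycloChar p g : ZMod p) :=
    s56c_det_eq_chi p rb hdet
  have hvan : s56g_H1Van rb :=
    s56c_h1van rb p hp2 habs hTW hsplit' (fun h5 => s56c_hdet5 p rb hdet h5)
  set E := s56c_PhiE p rb.toMonoidHom h2ne with hE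
  -- the cocycle of `ad⁰ ⊗ det`
  set ψ : GQ → Matrix (Fin 2) (Fin 2) k :=
    fun g => s56t_val p rb.toMonoidHom (E.symm (c g)) with hψdef
  have htr : ∀ g, (ψ g).trace = 0 := fun g => s56t_trace_val p rb.toMonoidHom _
  have hψ : s56g_IsCoc (s56g_twRep rb) ψ := by
    intro g h
    show s56t_val p rb.toMonoidHom (E.symm (c (g * h))) =
      s56t_val p rb.toMonoidHom (E.symm (c g)) +
        s56g_twRep rb g (s56t_val p rb.toMonoidHom (E.symm (c h)))
    rw [hc g h, map_add, s56t_val_add, s56c_symm_rho p rb.toMonoidHom h2ne hdetχ, add_comm]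
    rfl
  have hnot : ¬ ∃ m : Matrix (Fin 2) (Fin 2) k, m.trace = 0 ∧
      ∀ g, ψ g = s56g_twRep rb g m - m := by
    rintro ⟨m, hm0, hm⟩
    apply hne
    refine ⟨E (s56t_mkV p rb.toMonoidHom m hm0), fun g => ?_⟩
    have htr' : Matrix.trace ((rb.toMonoidHom g).det •
        (rb.toMonoidHom g * s56t_val p rb.toMonoidHom (s56t_mkV p rb.toMonoidHom m hm0) *
          rb.toMonoidHom g⁻¹)) = 0 := by
      rw [Matrix.trace_smul, s56t_trace_conj, s56t_trace_val, smul_zero]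
    have h1 := s56c_Phi_equiv p rb.toMonoidHom hdetχ g (s56t_mkV p rb.toMonoidHom m hm0)
      (s56t_mkV p rb.toMonoidHom _ htr') rfl
    have h2 : E.symm (c g) = s56t_mkV p rb.toMonoidHom _ htr' - s56t_mkV p rb.toMonoidHom m hm0 := by
      apply s56t_val_injective p rb.toMonoidHom
      rw [s56t_val_sub, s56t_val_mkV, s56t_val_mkV]
      exact hm g
    have h3 : c g = E (E.symm (c g)) := (LinearEquiv.apply_symm_apply E (c g)).symm
    rw [h3, h2, map_sub, hE, s56c_PhiE_apply, s56c_PhiE_apply, ← h1]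
  obtain ⟨σ₀, hσ₀, ⟨α, β, hαβ, hch⟩, hncob⟩ := s56g_select rb p hp.out.ne_zero n h2ne habs hTW
    hsplit' (s56c_det_one_of_cyc p rb hdet) hvan ψ htr hψ hnot
  refine ⟨σ₀, hσ₀, ⟨α, β, hαβ, (s56g_fr_charpoly rb σ₀).trans hch⟩, ?_⟩
  rintro ⟨m', hm'⟩
  apply hncob (s56t_val p rb.toMonoidHom (E.symm m'))
  show s56t_val p rb.toMonoidHom (E.symm (c σ₀)) = _
  rw [hm', map_sub, s56t_val_sub, s56c_symm_rho p rb.toMonoidHom h2ne hdetχ]
  rfl

/-- **[CHEB]**: the Chebotarev seam of `S56/Asm/Seams.lean`. -/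
theorem s56c_main : s56a_Cheb_stmt := by
  intro p hp hp2 k _ _ _ rb hyp Sm hpS hur D hD hDfin n T0
  have hyp' := hyp
  obtain ⟨habs, hdet, hsplit, hTW⟩ := hyp'
  have hchar : CharP k p := charP_of_injective_algebraMap (algebraMap (ZMod p) k).injective p
  have h2ne : (2 : k) ≠ 0 := by
    intro h
    have h2 : ((2 : ℕ) : k) = 0 := by exact_mod_cast h
    rw [CharP.cast_eq_zero_iff k p] at h2
    exact hp2 ((Nat.prime_dvd_prime_iff_eq hp.out Nat.prime_two).1 h2)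
  have hsm₀ : s56gw_Smooth (s56a_ad p rb) := s56t_ad0_smooth p rb.toMonoidHom rb.finiteLevel
  have hur₀ : s56gw_UnrOut Sm (s56a_ad p rb) := s56am_unrOut p rb Sm hur
  have hsm : s56gw_Smooth (s56gw_dual (s56a_ad p rb)) :=
    Fermat.Agent.S55.tl_dualTwist_smooth (s56a_ad p rb) hsm₀
  have hMur : s56gw_UnrOut Sm (s56gw_dual (s56a_ad p rb)) :=
    Fermat.Agent.S55.tl_dualTwist_unramified (s56a_ad p rb) Sm hpS hur₀
  have hreg0 : ∃ σ₀ ∈ s56g_cyc (p ^ (n + 1)), s56ce_Reg rb.toResidualGaloisRep σ₀ := by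
    obtain ⟨σ, hσ, α, β, hαβ, h⟩ := s56g_res_regular rb.toResidualGaloisRep h2ne habs hTW hsplit
      (s56g_cyc (p ^ (n + 1))) (fun g h => s56g_cyc_comm _ (pow_ne_zero _ hp.out.ne_zero) g h)
    exact ⟨σ, hσ, α, β, hαβ, h⟩
  obtain ⟨qv, hinj, hq, hker⟩ := s56ce_gw rb.toResidualGaloisRep n Sm hpS hur
    (s56gw_dual (s56a_ad p rb)) hsm hMur D hD hreg0
    (fun c _ _ hne => by
      refine s56c_sel p hp2 rb hyp n (c : GQ → (s56gw_dual (s56a_ad p rb)).V)
        ((mem_cocycles₁_iff (c : GQ → (s56gw_dual (s56a_ad p rb)).V)).1 c.2) ?_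
      rintro ⟨m, hm⟩
      apply hne
      rw [H1π_eq_zero_iff]
      exact ⟨m, funext fun g => (hm g).symm⟩)
    (finrank (ZMod p) D) le_rfl T0
  refine ⟨qv, hinj, fun i => ⟨(hq i).2.1, (hq i).2.2.1⟩, fun i => (hq i).2.2.2, fun y hy hloc => ?_⟩
  have hmem : y ∈ D ⊓ ⨅ i, LinearMap.ker (s56gw_loc (s56gw_dual (s56a_ad p rb)) (qv i)) := by
    exact Submodule.mem_inf.2 ⟨hy, (Submodule.mem_iInf _).2 fun i => LinearMap.mem_ker.2 (hloc i)⟩
  rw [hker] at hmem
  exact (Submodule.mem_bot _).1 hmem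

end Fermat.Agent.S56
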